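import Fermat.Agent.S55.PT.Levels

/-!
# S55 / dictionary "level-constant cochains ↔ cochains at a finite normal level"  (helper468)

Elementary core of the leaves KL-D1 / KL-D3 (layer KL of helper53), stated with all definitions
unfolded, so that it depends only on `PT/Levels.lean` and Mathlib:

* `isAt₁_of_rightInv` : a 1-cocycle which is right-invariant under a normal subgroup `V` has
  `V`-invariant values;
* `exists_normal_level_le` : below two levels there is a normal level;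
* `exists_level_fixing_range₃` : a right-`U`-invariant 3-cochain with values in a smooth module
  (levels of finite index) has all its values fixed by a common level;
* `h1Vanish_of_at` : `H¹(G ⧸ V, B^V) = 0` (cochain form) at all normal levels `V ≤ V₀` implies
  that every level-constant 1-cocycle is a coboundary;
* `h3Vanish_of_at` : the same in degree 3.
-/

set_option autoImplicit false

namespace Fermat.Agent.S55.H468

open groupCohomology Fermat.Agent.S55.PT

variable {G : Type} [Group G] {k : Type} [CommRing k]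

/-- A 1-cocycle which is right-invariant under a normal subgroup `V` has `V`-invariant values. -/
lemma isAt₁_of_rightInv (A : Rep.{0, 0, 0} k G) (V : Subgroup G) (hV : V.Normal) (f : G → A)
    (hf : f ∈ cocycles₁ A) (hinv : ∀ g s : G, s ∈ V → f (g * s) = f g) :
    ∀ g s : G, s ∈ V → f (g * s) = f g ∧ A.ρ s (f g) = f g := by
  intro g s hs
  refine ⟨hinv g s hs, ?_⟩
  have hc := (mem_cocycles₁_iff f).1 hf
  have h1 : f 1 = 0 := cocycles₁_map_one (⟨f, hf⟩ : cocycles₁ A)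
  have hfs : f s = 0 := by
    have := hinv 1 s hs
    rw [one_mul] at this
    rw [this, h1]
  have h2 : f (s * g) = A.ρ s (f g) := by
    rw [hc s g, hfs, add_zero]
  have h3 : f (s * g) = f g := by
    have hmem : g⁻¹ * s * g ∈ V := by
      have := hV.conj_mem s hs g⁻¹
      simpa using this
    have := hinv g (g⁻¹ * s * g) hmem
    rw [← this]
    congr 1
    group
  rw [← h2, h3]

/-- Below two levels there is a normal level. -/
lemma exists_normal_level_le (L : LevelSys G) (hN : L.NormalCofinal) {U V₀ : Subgroup G}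
    (hU : U ∈ L.levels) (hV₀ : V₀ ∈ L.levels) :
    ∃ V ∈ L.levels, V.Normal ∧ V ≤ U ∧ V ≤ V₀ := by
  obtain ⟨W, hW, hle⟩ := L.directed U hU V₀ hV₀
  obtain ⟨V, hV, hVW, hVn⟩ := hN W hW
  exact ⟨V, hV, hVn, hVW.trans (hle.trans inf_le_left), hVW.trans (hle.trans inf_le_right)⟩

/-- Finitely many elements of a smooth module are fixed by a common level, which may be chosen
below any given level. -/
lemma exists_level_fixing_finset (L : LevelSys G) (A : Rep.{0, 0, 0} k G) (hA : L.IsSmooth A)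
    (s : Finset A) {U₀ : Subgroup G} (hU₀ : U₀ ∈ L.levels) :
    ∃ W ∈ L.levels, W ≤ U₀ ∧ ∀ b ∈ s, ∀ w ∈ W, A.ρ w b = b := by
  classical
  induction s using Finset.induction_on with
  | empty => exact ⟨U₀, hU₀, le_rfl, by simp⟩
  | insert a s _ ih =>
    obtain ⟨W, hW, hWU, hfix⟩ := ih
    obtain ⟨W', hW', hW'a⟩ := hA a
    obtain ⟨X, hX, hle⟩ := L.directed W hW W' hW'
    refine ⟨X, hX, (hle.trans inf_le_left).trans hWU, ?_⟩
    intro b hb w hw
    rcases Finset.mem_insert.1 hb with rfl | hb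
    · exact hW'a w (hle hw).2
    · exact hfix b hb w (hle hw).1

/-- A function on `G × G × G` which is right-invariant under a subgroup of finite index has
finitely many values. -/
lemma finite_range_of_rightInv₃ {X : Type*} (W : Subgroup G) [W.FiniteIndex]
    (f : G × G × G → X)
    (hf : ∀ g₁ g₂ g₃ s₁ s₂ s₃ : G, s₁ ∈ W → s₂ ∈ W → s₃ ∈ W →
      f (g₁ * s₁, g₂ * s₂, g₃ * s₃) = f (g₁, g₂, g₃)) :
    (Set.range f).Finite := by
  have : Finite (G ⧸ W) := Subgroup.finite_quotient_of_finiteIndex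
  let F : (G ⧸ W) × (G ⧸ W) × (G ⧸ W) → X := fun x => f (x.1.out, x.2.1.out, x.2.2.out)
  refine (Set.finite_range F).subset ?_
  rintro _ ⟨⟨g₁, g₂, g₃⟩, rfl⟩
  refine ⟨((g₁ : G ⧸ W), (g₂ : G ⧸ W), (g₃ : G ⧸ W)), ?_⟩
  obtain ⟨s₁, hs₁⟩ := QuotientGroup.mk_out_eq_mul W g₁
  obtain ⟨s₂, hs₂⟩ := QuotientGroup.mk_out_eq_mul W g₂
  obtain ⟨s₃, hs₃⟩ := QuotientGroup.mk_out_eq_mul W g₃
  show f ((g₁ : G ⧸ W).out, (g₂ : G ⧸ W).out, (g₃ : G ⧸ W).out) = f (g₁, g₂, g₃)
  rw [hs₁, hs₂, hs₃]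
  exact hf g₁ g₂ g₃ s₁ s₂ s₃ s₁.2 s₂.2 s₃.2

/-- A right-`U`-invariant 3-cochain with values in a smooth module (levels of finite index) has
all its values fixed by a common level `W ≤ U`. -/
lemma exists_level_fixing_range₃ (L : LevelSys G) (hF : L.FiniteIndex) (A : Rep.{0, 0, 0} k G)
    (hA : L.IsSmooth A) {U : Subgroup G} (hU : U ∈ L.levels) (z : G × G × G → A)
    (hz : ∀ g₁ g₂ g₃ s₁ s₂ s₃ : G, s₁ ∈ U → s₂ ∈ U → s₃ ∈ U →
      z (g₁ * s₁, g₂ * s₂, g₃ * s₃) = z (g₁, g₂, g₃)) :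
    ∃ W ∈ L.levels, W ≤ U ∧ ∀ g₁ g₂ g₃ : G, ∀ w ∈ W, A.ρ w (z (g₁, g₂, g₃)) = z (g₁, g₂, g₃) := by
  have : U.FiniteIndex := hF U hU
  have hfin : (Set.range z).Finite := finite_range_of_rightInv₃ U z hz
  obtain ⟨W, hW, hWU, hfix⟩ := exists_level_fixing_finset L A hA hfin.toFinset hU
  exact ⟨W, hW, hWU, fun g₁ g₂ g₃ w hw =>
    hfix _ (hfin.mem_toFinset.2 ⟨(g₁, g₂, g₃), rfl⟩) w hw⟩

/-- **Core of KL-D1.**  If at every normal level `V ≤ V₀` every 1-cocycle inflated from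
`(G ⧸ V, B^V)` is the coboundary of a `V`-invariant element, then every level-constant 1-cocycle
is a coboundary. -/
theorem h1Vanish_of_at (L : LevelSys G) (B : Rep.{0, 0, 0} k G) (V₀ : Subgroup G)
    (hN : L.NormalCofinal) (hV₀ : V₀ ∈ L.levels)
    (h : ∀ V : Subgroup G, V ∈ L.levels → V.Normal → V ≤ V₀ →
      ∀ f : G → B, f ∈ cocycles₁ B →
        (∀ g s : G, s ∈ V → f (g * s) = f g ∧ B.ρ s (f g) = f g) →
        ∃ a : B, (∀ s ∈ V, B.ρ s a = a) ∧ (d₀₁ B).hom a = f) :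
    ∀ f : G → B, f ∈ cocycles₁ B → L.IsLC₁ f → ∃ a : B, (d₀₁ B).hom a = f := by
  rintro f hf ⟨U, hU, hfU⟩
  obtain ⟨V, hV, hVn, hVU, hVV₀⟩ := exists_normal_level_le L hN hU hV₀
  obtain ⟨a, -, ha⟩ := h V hV hVn hVV₀ f hf
    (isAt₁_of_rightInv B V hVn f hf fun g s hs => hfU g s (hVU hs))
  exact ⟨a, ha⟩

/-- **Core of KL-D3.**  If at every normal level `V ≤ V₀` every 3-cocycle inflated from
`(G ⧸ V, B^V)` is `d` of a 2-cochain inflated from `(G ⧸ V, B^V)`, then every level-constant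
3-cocycle is `d` of a level-constant 2-cochain (`B` smooth, levels of finite index). -/
theorem h3Vanish_of_at (L : LevelSys G) (B : Rep.{0, 0, 0} k G) (V₀ : Subgroup G)
    (hN : L.NormalCofinal) (hF : L.FiniteIndex) (hB : L.IsSmooth B) (hV₀ : V₀ ∈ L.levels)
    (C : (G × G × G → B) → Prop)
    (h : ∀ V : Subgroup G, V ∈ L.levels → V.Normal → V ≤ V₀ →
      ∀ z : G × G × G → B,
        (∀ g h i s t u : G, s ∈ V → t ∈ V → u ∈ V →
          z (g * s, h * t, i * u) = z (g, h, i) ∧ B.ρ s (z (g, h, i)) = z (g, h, i)) →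
        C z →
        ∃ b : G × G → B,
          (∀ g h s t : G, s ∈ V → t ∈ V →
            b (g * s, h * t) = b (g, h) ∧ B.ρ s (b (g, h)) = b (g, h)) ∧
          (d₂₃ B).hom b = z) :
    ∀ z : G × G × G → B,
      (∃ U ∈ L.levels, ∀ g₁ g₂ g₃ s₁ s₂ s₃ : G, s₁ ∈ U → s₂ ∈ U → s₃ ∈ U →
        z (g₁ * s₁, g₂ * s₂, g₃ * s₃) = z (g₁, g₂, g₃)) →
      C z → ∃ b : G × G → B, L.IsLC₂ b ∧ (d₂₃ B).hom b = z := by
  rintro z ⟨U, hU, hzU⟩ hC
  obtain ⟨W, hW, hWU, hfix⟩ := exists_level_fixing_range₃ L hF B hB hU z hzU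
  obtain ⟨V, hV, hVn, hVW, hVV₀⟩ := exists_normal_level_le L hN hW hV₀
  obtain ⟨b, hb, hbz⟩ := h V hV hVn hVV₀ z
    (fun g h i s t u hs ht hu =>
      ⟨hzU g h i s t u (hWU (hVW hs)) (hWU (hVW ht)) (hWU (hVW hu)), hfix g h i s (hVW hs)⟩) hC
  exact ⟨b, ⟨V, hV, fun g g' s s' hs hs' => (hb g g' s s' hs hs').1⟩, hbz⟩

end Fermat.Agent.S55.H468
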